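import Mathlib.RingTheory.LaurentSeries
import Mathlib.RingTheory.Polynomial.Basic
import Mathlib.RingTheory.RootsOfUnity.PrimitiveRoots
import Fermat.Prelude.Def_ModularCurve_X0
import Fermat.Prelude.Def_ModularCurve_JqCoeff
import Fermat.Prelude.Def_ModularCurve_LaurentCoeff

/-!
# Shared formal definitions for the Igusa project (S28)

All series live in `LaurentSeries k` (variable `t`).

* `twist ζ`      : `f(t) ↦ f(ζ t)`  (ring hom, `ζ` a unit of `k`)
* `subst ζ e`    : `f(t) ↦ f(ζ t^e)` (`= qExpand e ∘ twist ζ`)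
* `deltaS k`     : the formal discriminant `t * ∏ (1 - t^n)^24`
* `deltaInvS k`  : its inverse
* `rootInf, rootFin, unitInf, unitFin` : the `p+1` conjugates of `j(t^{p^2})` resp. of
  `p^12 Δ(t^{p^2}) / Δ(t^p)` over the base `j(t^p)`.
-/

set_option autoImplicit false

noncomputable section

open HahnSeries ModularCurve

namespace Fermat.Agent.H27

variable {k : Type*} [CommRing k]

/-- underlying function of `twist` -/
def twistFun (ζ : kˣ) (f : LaurentSeries k) : LaurentSeries k where
  coeff n := ((ζ ^ n : kˣ) : k) * f.coeff n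
  isPWO_support' := f.isPWO_support.mono (fun n hn => by
    simp only [Function.mem_support, ne_eq] at hn ⊢
    intro h
    exact hn (by rw [h, mul_zero]))

@[simp] theorem twistFun_coeff (ζ : kˣ) (f : LaurentSeries k) (n : ℤ) :
    (twistFun ζ f).coeff n = ((ζ ^ n : kˣ) : k) * f.coeff n := rfl

theorem twistFun_support (ζ : kˣ) (f : LaurentSeries k) :
    (twistFun ζ f).support = f.support := by
  ext n
  simp only [HahnSeries.mem_support, twistFun_coeff, ne_eq]
  exact not_congr (Units.mul_right_eq_zero (ζ ^ n))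

/-- `f(t) ↦ f(ζ t)` as a ring homomorphism of `LaurentSeries k`. -/
def twist (ζ : kˣ) : LaurentSeries k →+* LaurentSeries k where
  toFun := twistFun ζ
  map_zero' := by ext n; simp
  map_one' := by
    ext n
    rw [twistFun_coeff, HahnSeries.coeff_one]
    split_ifs with h
    · subst h; simp
    · simp
  map_add' f g := by ext n; simp [mul_add]
  map_mul' f g := by
    ext n
    rw [twistFun_coeff, HahnSeries.coeff_mul, HahnSeries.coeff_mul, Finset.mul_sum]
    have hfin : Finset.antidiagonal (twistFun ζ f).isPWO_support (twistFun ζ g).isPWO_support n =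
        Finset.antidiagonal f.isPWO_support g.isPWO_support n := by
      ext ij
      simp only [Finset.mem_antidiagonal, twistFun_support]
    rw [hfin]
    refine Finset.sum_congr rfl fun ij hij => ?_
    rw [Finset.mem_antidiagonal] at hij
    rw [twistFun_coeff, twistFun_coeff, ← hij.2.2, zpow_add, Units.val_mul]
    ring

@[simp] theorem twist_coeff (ζ : kˣ) (f : LaurentSeries k) (n : ℤ) :
    (twist ζ f).coeff n = ((ζ ^ n : kˣ) : k) * f.coeff n := rfl

/-- `f(t) ↦ f(ζ t^e)` -/
def subst (ζ : kˣ) (e : ℕ) [NeZero e] : LaurentSeries k →+* LaurentSeries k :=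
  (qExpand k e).comp (twist ζ)

theorem subst_apply (ζ : kˣ) (e : ℕ) [NeZero e] (f : LaurentSeries k) :
    subst ζ e f = qExpand k e (twist ζ f) := rfl

variable (k)

/-- the formal discriminant `Δ = t ∏ (1 - t^n)^24` -/
def deltaS : LaurentSeries k :=
  HahnSeries.single (1 : ℤ) 1 *
    HahnSeries.ofPowerSeries ℤ k (dedekindEtaUnit.map (Int.castRingHom k))

/-- the formal inverse of the discriminant -/
def deltaInvS : LaurentSeries k :=
  HahnSeries.single (-1 : ℤ) 1 *
    HahnSeries.ofPowerSeries ℤ k (dedekindEtaUnitInv.map (Int.castRingHom k))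

theorem deltaS_mul_deltaInvS : deltaS k * deltaInvS k = 1 := by
  have h : (dedekindEtaUnit.map (Int.castRingHom k)) *
      (dedekindEtaUnitInv.map (Int.castRingHom k)) = 1 := by
    rw [← map_mul, dedekindEtaUnit_mul_inv, map_one]
  have h2 : HahnSeries.ofPowerSeries ℤ k (dedekindEtaUnit.map (Int.castRingHom k)) *
      HahnSeries.ofPowerSeries ℤ k (dedekindEtaUnitInv.map (Int.castRingHom k)) = 1 := by
    rw [← map_mul, h, map_one]
  calc deltaS k * deltaInvS k
      = (HahnSeries.single (1 : ℤ) (1 : k) * HahnSeries.single (-1 : ℤ) 1) *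
        (HahnSeries.ofPowerSeries ℤ k (dedekindEtaUnit.map (Int.castRingHom k)) *
          HahnSeries.ofPowerSeries ℤ k (dedekindEtaUnitInv.map (Int.castRingHom k))) := by
        rw [deltaS, deltaInvS]; ring
    _ = 1 := by
        rw [h2, mul_one, HahnSeries.single_mul_single]
        simp

/-- base of the level-`p` picture: `j(t^p)` -/
def baseS (p : ℕ) [NeZero p] : LaurentSeries k := qExpand k p (jqModC k)

/-- the root at infinity: `j(t^{p^2})` -/
def rootInf (p : ℕ) [NeZero p] : LaurentSeries k := qExpand k p (qExpand k p (jqModC k))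

variable {k}

/-- the finite roots: `j(ζ t)` (use with `ζ ^ b`, `b < p`, `ζ` a primitive `p`-th root of unity) -/
def rootFin (ζ : kˣ) : LaurentSeries k := twist ζ (jqModC k)

variable (k)

/-- the unit at infinity: `p^12 Δ(t^{p^2}) / Δ(t^p)` -/
def unitInf (p : ℕ) [NeZero p] : LaurentSeries k :=
  (p : LaurentSeries k) ^ 12 * qExpand k p (qExpand k p (deltaS k)) * qExpand k p (deltaInvS k)

variable {k}

/-- the finite units: `Δ(ζ t) / Δ(t^p)` -/
def unitFin (p : ℕ) [NeZero p] (ζ : kˣ) : LaurentSeries k :=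
  twist ζ (deltaS k) * qExpand k p (deltaInvS k)

/-- coefficient map `ℤ[X] → k((t))`, `X ↦ x` -/
def evalAt (x : LaurentSeries k) : Polynomial ℤ →+* LaurentSeries k :=
  Polynomial.eval₂RingHom (Int.castRingHom (LaurentSeries k)) x

/-- The formal Hecke data at a prime `p` over a coefficient ring `k` containing a primitive
`p`-th root of unity `ζ`: modular polynomial `Φ`, unit polynomial `Ψ`, interpolation polynomial `L`,
all in `ℤ[X][Y]`, with base `X ↦ j(t^p)`:
* `Φ(j(t^p), Y) = (Y - j(t^{p²})) ∏_{b<p} (Y - j(ζ^b t))`;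
* `Ψ` is monic and kills the unit `p^12 Δ(t^{p²})/Δ(t^p)`;
* `L(j(t^p), j(t^{p²})) = unit * (∂Φ/∂Y)(j(t^p), j(t^{p²}))`. -/
structure HeckeDataOver (p : ℕ) [NeZero p] (k : Type*) [CommRing k] (ζ : kˣ) : Type where
  Φ : Polynomial (Polynomial ℤ)
  Ψ : Polynomial (Polynomial ℤ)
  L : Polynomial (Polynomial ℤ)
  Φ_monic : Φ.Monic
  Φ_natDegree : Φ.natDegree = p + 1
  Ψ_monic : Ψ.Monic
  Φ_factor : Φ.map (evalAt (baseS k p)) =
    (Polynomial.X - Polynomial.C (rootInf k p)) *
      ∏ b ∈ Finset.range p, (Polynomial.X - Polynomial.C (rootFin (ζ ^ b)))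
  Ψ_root : (Ψ.map (evalAt (baseS k p))).eval (unitInf k p) = 0
  L_inf : (L.map (evalAt (baseS k p))).eval (rootInf k p) =
    unitInf k p * ((Φ.map (evalAt (baseS k p))).derivative).eval (rootInf k p)

end Fermat.Agent.H27

namespace Fermat.Agent.H27

/-- Hecke data exist over `k` for every prime `p` and every primitive `p`-th root of unity in `k`
(vacuous at `p = char k`). -/
def HasHeckeData (k : Type*) [Field k] : Prop :=
  ∀ (p : ℕ) [NeZero p], p.Prime → ∀ ζ : kˣ, IsPrimitiveRoot (ζ : k) p →
    Nonempty (HeckeDataOver p k ζ)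

end Fermat.Agent.H27
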