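import Mathlib
import Fermat.Prelude.Def_ModularCurve_X0ModL
import Fermat.Agent.H27.Igusa.Defs

/-!
# Substitution calculus and the one-step tracking lemma (P-IGUSA)
-/

set_option autoImplicit false

noncomputable section

open HahnSeries ModularCurve Polynomial

namespace Fermat.Agent.H27

section Calculus

variable {k : Type*} [CommRing k]

theorem twist_twist (ζ ξ : kˣ) (f : LaurentSeries k) :
    twist ζ (twist ξ f) = twist (ζ * ξ) f := by
  ext n
  simp only [twist_coeff, mul_zpow, Units.val_mul, mul_assoc]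

@[simp] theorem twist_one (f : LaurentSeries k) : twist (1 : kˣ) f = f := by
  ext n
  simp [twist_coeff]

theorem qExpand_coeff_ite (e : ℕ) [NeZero e] (f : LaurentSeries k) (n : ℤ) :
    (qExpand k e f).coeff n = if (e : ℤ) ∣ n then f.coeff (n / e) else 0 := by
  split_ifs with h
  · obtain ⟨m, rfl⟩ := h
    rw [qExpand_coeff_mul, Int.mul_ediv_cancel_left _ (by exact_mod_cast NeZero.ne e)]
  · exact qExpand_coeff_of_not_dvd e f h

theorem twist_qExpand (ζ : kˣ) (e : ℕ) [NeZero e] (f : LaurentSeries k) :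
    twist ζ (qExpand k e f) = qExpand k e (twist (ζ ^ e) f) := by
  ext n
  rw [twist_coeff, qExpand_coeff_ite, qExpand_coeff_ite]
  split_ifs with h
  · obtain ⟨m, rfl⟩ := h
    rw [Int.mul_ediv_cancel_left _ (by exact_mod_cast NeZero.ne e), twist_coeff]
    congr 2
    rw [← zpow_natCast, ← zpow_mul]
  · simp

theorem subst_qExpand (ξ : kˣ) (e p : ℕ) [NeZero e] [NeZero p] (f : LaurentSeries k) :
    subst ξ e (qExpand k p f) = subst (ξ ^ p) (e * p) f := by
  rw [subst_apply, subst_apply, twist_qExpand, qExpand_qExpand]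

theorem subst_twist (ξ ζ : kˣ) (e : ℕ) [NeZero e] (f : LaurentSeries k) :
    subst ξ e (twist ζ f) = subst (ζ * ξ) e f := by
  rw [subst_apply, subst_apply, twist_twist, mul_comm]

theorem qExpand_subst (ξ : kˣ) (e e' : ℕ) [NeZero e] [NeZero e'] (f : LaurentSeries k) :
    qExpand k e (subst ξ e' f) = subst ξ (e * e') f := by
  rw [subst_apply, subst_apply, qExpand_qExpand]

theorem subst_one_eq_qExpand (e : ℕ) [NeZero e] (f : LaurentSeries k) :
    subst (1 : kˣ) e f = qExpand k e f := by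
  rw [subst_apply, twist_one]

theorem subst_coeff_mul (ξ : kˣ) (e : ℕ) [NeZero e] (f : LaurentSeries k) (n : ℤ) :
    (subst ξ e f).coeff ((e : ℤ) * n) = ((ξ ^ n : kˣ) : k) * f.coeff n := by
  rw [subst_apply, qExpand_coeff_mul, twist_coeff]

theorem subst_coeff_of_not_dvd (ξ : kˣ) (e : ℕ) [NeZero e] (f : LaurentSeries k) {n : ℤ}
    (h : ¬ (e : ℤ) ∣ n) : (subst ξ e f).coeff n = 0 := by
  rw [subst_apply]
  exact qExpand_coeff_of_not_dvd e _ h

theorem subst_congr {ξ ξ' : kˣ} {e e' : ℕ} [NeZero e] [NeZero e'] (hξ : ξ = ξ') (he : e = e')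
    (f : LaurentSeries k) : subst ξ e f = subst ξ' e' f := by
  subst hξ; subst he; rfl

/-- the evaluation homomorphism `ℤ[X] → Ω`, `X ↦ x` -/
def evalAtR {Ω : Type*} [CommRing Ω] (x : Ω) : Polynomial ℤ →+* Ω :=
  Polynomial.eval₂RingHom (Int.castRingHom Ω) x

theorem comp_evalAt {Ω : Type*} [CommRing Ω] (φ : LaurentSeries k →+* Ω) (x : LaurentSeries k) :
    φ.comp (evalAt x) = evalAtR (φ x) := by
  refine Polynomial.ringHom_ext' (Subsingleton.elim _ _) ?_
  simp [evalAt, evalAtR]

theorem evalAtR_comp {Ω Ω' : Type*} [CommRing Ω] [CommRing Ω'] (φ : Ω →+* Ω') (x : Ω) :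
    φ.comp (evalAtR x) = evalAtR (φ x) := by
  refine Polynomial.ringHom_ext' (Subsingleton.elim _ _) ?_
  simp [evalAtR]

end Calculus

section Step

variable {k : Type*} [CommRing k]

/-- **One-step tracking.**  If `x = ρ (j(ξ'^p t^{e' p}))` and `Φ_p(x, y) = 0` in a domain, then
`y = ρ (j(ξ'^{p²} t^{e' p²}))` or `y = ρ (j(ζ^b ξ' t^{e'}))` for some `b < p`. -/
theorem track_step (p : ℕ) [NeZero p] (ζ : kˣ) (D : HeckeDataOver p k ζ)
    {Ω : Type*} [CommRing Ω] [IsDomain Ω] (ρ : LaurentSeries k →+* Ω)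
    (ξ' : kˣ) (e' : ℕ) [NeZero e'] (x y : Ω)
    (hx : x = ρ (subst (ξ' ^ p) (e' * p) (jqModC k)))
    (hxy : (D.Φ.map (evalAtR x)).eval y = 0) :
    y = ρ (subst ((ξ' ^ p) ^ p) (e' * p * p) (jqModC k)) ∨
      ∃ b ∈ Finset.range p, y = ρ (subst (ζ ^ b * ξ') e' (jqModC k)) := by
  have h := congrArg (Polynomial.map (ρ.comp (subst ξ' e'))) D.Φ_factor
  rw [Polynomial.map_map, comp_evalAt] at h
  have hbase : (ρ.comp (subst ξ' e')) (baseS k p) = x := by
    rw [hx, RingHom.comp_apply, baseS, subst_qExpand]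
  rw [hbase] at h
  rw [h] at hxy
  simp only [Polynomial.map_mul, Polynomial.map_sub, Polynomial.map_X, Polynomial.map_C,
    Polynomial.map_prod, Polynomial.eval_mul, Polynomial.eval_sub, Polynomial.eval_X,
    Polynomial.eval_C, Polynomial.eval_prod, RingHom.comp_apply] at hxy
  rcases mul_eq_zero.mp hxy with h1 | h2
  · left
    rw [sub_eq_zero] at h1
    rw [h1, rootInf, subst_qExpand, subst_qExpand]
  · right
    obtain ⟨b, hb, hb0⟩ := Finset.prod_eq_zero_iff.mp h2
    refine ⟨b, hb, ?_⟩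
    rw [sub_eq_zero] at hb0
    rw [hb0, rootFin, subst_twist]

end Step

end Fermat.Agent.H27

namespace Fermat.Agent.H27

section HeckeMap

variable {k : Type*} [CommRing k] {p : ℕ} [NeZero p] {ζ : kˣ} (D : HeckeDataOver p k ζ)
variable {Ω : Type*} [CommRing Ω] (φ : LaurentSeries k →+* Ω)

theorem map_eval_map (P : Polynomial (Polynomial ℤ)) (x a : LaurentSeries k) :
    φ ((P.map (evalAt x)).eval a) = (P.map (evalAtR (φ x))).eval (φ a) := by
  rw [Polynomial.eval_map, Polynomial.eval_map, Polynomial.hom_eval₂, comp_evalAt]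

theorem hecke_Φ_map : D.Φ.map (evalAtR (φ (baseS k p))) =
    (Polynomial.X - Polynomial.C (φ (rootInf k p))) *
      ∏ b ∈ Finset.range p, (Polynomial.X - Polynomial.C (φ (rootFin (ζ ^ b)))) := by
  have h := congrArg (Polynomial.map φ) D.Φ_factor
  rw [Polynomial.map_map, comp_evalAt] at h
  rw [h]
  simp only [Polynomial.map_mul, Polynomial.map_sub, Polynomial.map_X, Polynomial.map_C,
    Polynomial.map_prod]

theorem hecke_Ψ_root : (D.Ψ.map (evalAtR (φ (baseS k p)))).eval (φ (unitInf k p)) = 0 := by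
  rw [← map_eval_map, D.Ψ_root, map_zero]

theorem hecke_L_inf : (D.L.map (evalAtR (φ (baseS k p)))).eval (φ (rootInf k p)) =
    φ (unitInf k p) * ((D.Φ.map (evalAtR (φ (baseS k p)))).derivative).eval (φ (rootInf k p)) := by
  rw [← map_eval_map, D.L_inf, map_mul, Polynomial.derivative_map, Polynomial.derivative_map,
    map_eval_map]

end HeckeMap

end Fermat.Agent.H27

namespace Fermat.Agent.H27

/-- `f` has positive order: all coefficients at exponents `≤ 0` vanish. -/
def PosOrd {k : Type*} [CommRing k] (f : LaurentSeries k) : Prop :=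
  ∀ n : ℤ, n ≤ 0 → f.coeff n = 0

end Fermat.Agent.H27
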