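import Mathlib
import Fermat.Prelude.Def_ModularCurve_X0ModL
import Fermat.Agent.H27.Igusa.Defs
import Fermat.Agent.H27.Igusa.Track

/-!
# Chain fields for the Igusa project (definitions)

* `jLev k n`        : `j(q^n)` (junk value `0` for `n = 0`), no instance arguments
* `unitLev k n p`   : `p^12 Δ(q^{np}) / Δ(q^n)`
* `chainSet k ps`   : `{ j(q^{∏ qs}) | qs` a prefix of `ps }`
* `chainField k ps` : the intermediate field of `k((q))/k` generated by `chainSet k ps`
-/

set_option autoImplicit false

noncomputable section

open HahnSeries ModularCurve Polynomial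

namespace Fermat.Agent.H27

section Defs

variable (k : Type*) [CommRing k]

/-- `j(q^n)`, with junk value `0` at `n = 0`. -/
def jLev (n : ℕ) : LaurentSeries k :=
  if h : n = 0 then 0 else (haveI : NeZero n := ⟨h⟩; qExpand k n (jqModC k))

theorem jLev_eq (n : ℕ) [NeZero n] : jLev k n = qExpand k n (jqModC k) := by
  rw [jLev, dif_neg (NeZero.ne n)]

@[simp] theorem jLev_one : jLev k 1 = jqModC k := by
  rw [jLev_eq, qExpand_one_apply]

theorem qExpand_jLev (e n : ℕ) [NeZero e] (hn : n ≠ 0) :
    qExpand k e (jLev k n) = jLev k (e * n) := by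
  haveI : NeZero n := ⟨hn⟩
  rw [jLev_eq, jLev_eq, qExpand_qExpand]

/-- the level-one unit `p^12 Δ(q^p) / Δ(q)` -/
def unitOne (p : ℕ) [NeZero p] : LaurentSeries k :=
  (p : LaurentSeries k) ^ 12 * qExpand k p (deltaS k) * deltaInvS k

/-- `p^12 Δ(q^{np}) / Δ(q^n)`, junk value `0` at `n = 0`. -/
def unitLev (n p : ℕ) [NeZero p] : LaurentSeries k :=
  if h : n = 0 then 0 else (haveI : NeZero n := ⟨h⟩; qExpand k n (unitOne k p))

theorem unitLev_eq (n p : ℕ) [NeZero n] [NeZero p] :
    unitLev k n p = qExpand k n (unitOne k p) := by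
  rw [unitLev, dif_neg (NeZero.ne n)]

theorem unitInf_eq_qExpand_unitOne (p : ℕ) [NeZero p] :
    unitInf k p = qExpand k p (unitOne k p) := by
  rw [unitInf, unitOne, map_mul, map_mul, map_pow, map_natCast]

end Defs

section Fields

variable (k : Type*) [Field k]

/-- generators of the chain field attached to a list of primes -/
def chainSet (ps : List ℕ) : Set (LaurentSeries k) :=
  {x | ∃ qs : List ℕ, qs <+: ps ∧ x = jLev k qs.prod}

/-- the chain field `k(j(q^{N_0}), …, j(q^{N_s}))`, `N_i` the partial products of `ps` -/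
def chainField (ps : List ℕ) : IntermediateField k (LaurentSeries k) :=
  IntermediateField.adjoin k (chainSet k ps)

theorem jLev_mem_chainField {ps qs : List ℕ} (h : qs <+: ps) :
    jLev k qs.prod ∈ chainField k ps :=
  IntermediateField.subset_adjoin k _ ⟨qs, h, rfl⟩

theorem chainSet_nil : chainSet k [] = {jqModC k} := by
  ext x
  simp only [chainSet, List.prefix_nil, Set.mem_setOf_eq, Set.mem_singleton_iff]
  constructor
  · rintro ⟨qs, rfl, rfl⟩
    simp
  · rintro rfl
    exact ⟨[], rfl, by simp⟩

theorem chainField_nil : chainField k [] = IntermediateField.adjoin k {jqModC k} := by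
  rw [chainField, chainSet_nil]

theorem chainSet_append_singleton (ps : List ℕ) (p : ℕ) :
    chainSet k (ps ++ [p]) = chainSet k ps ∪ {jLev k (ps.prod * p)} := by
  ext x
  simp only [chainSet, Set.mem_setOf_eq, Set.mem_union, Set.mem_singleton_iff]
  constructor
  · rintro ⟨qs, hqs, rfl⟩
    rcases List.prefix_concat_iff.mp (by simpa [List.concat_eq_append] using hqs) with h | h
    · right
      rw [h]
      simp [List.concat_eq_append]
    · left
      exact ⟨qs, h, rfl⟩
  · rintro (⟨qs, hqs, rfl⟩ | rfl)
    · exact ⟨qs, hqs.trans (List.prefix_append ps [p]), rfl⟩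
    · exact ⟨ps ++ [p], List.prefix_refl _, by simp⟩

theorem chainField_append_singleton (ps : List ℕ) (p : ℕ) :
    chainField k (ps ++ [p]) =
      chainField k ps ⊔ IntermediateField.adjoin k {jLev k (ps.prod * p)} := by
  rw [chainField, chainField, chainSet_append_singleton, IntermediateField.adjoin_union]

theorem chainField_mono {ps qs : List ℕ} (h : qs <+: ps) : chainField k qs ≤ chainField k ps := by
  refine IntermediateField.adjoin.mono k _ _ ?_
  rintro x ⟨rs, hrs, rfl⟩
  exact ⟨rs, hrs.trans h, rfl⟩

theorem base_le_chainField (ps : List ℕ) :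
    IntermediateField.adjoin k {jqModC k} ≤ chainField k ps := by
  rw [← chainField_nil]
  exact chainField_mono k (List.nil_prefix)

end Fields

end Fermat.Agent.H27
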