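import Fermat.Agent.H27.Igusa.Assembly
import Fermat.Agent.H9.Igusa.UnitNormFinal

/-!
# Igusa's theorem (S28) from the two remaining inputs IG-C (`RedStatement`) and IG-M
(`HasHeckeData ℂ`); the unit norm lemma IG-E3 is plugged in here.
-/

set_option autoImplicit false
open AlgebraicGeometry CategoryTheory CategoryTheory.Limits ModularCurve ModularCurve.IgusaScheme
open scoped TensorProduct
noncomputable section

namespace Fermat.Agent.H27

theorem unitNormStatement_of_hasHeckeData (k : Type) [Field k] [IsAlgClosed k]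
    (hM : HasHeckeData k) : UnitNormStatement k :=
  fun ps hps p hp hpk hpn => Fermat.Agent.H9.jLev_not_mem_chainField k hM ps hps p hp hpk hpn

/-- **Igusa's theorem** from IG-C and IG-M. -/
theorem igusa_isIntegral_of_red_hecke (N : ℕ) [NeZero N] (ℓ : ℕ) [Fact ℓ.Prime] (hℓN : ¬ ℓ ∣ N)
    (hC : RedStatement N ℓ) (hM : HasHeckeData ℂ)
    (K : Type) [Field K] [CharP K ℓ] [Algebra ↥(GaloisRep.ratLocalizedAt ℓ) K] :
    IsIntegral ↑(pullback (igusaTo N ℓ)
      (Spec.map (CommRingCat.ofHom (algebraMap ↥(GaloisRep.ratLocalizedAt ℓ) K)))) :=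
  igusa_isIntegral_of N ℓ hℓN hC hM
    (unitNormStatement_of_hasHeckeData _ (Fermat.Agent.H67.hasHeckeData_of_complex hM _)) K

end Fermat.Agent.H27
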