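import Fermat.Agent.H27.Igusa.Assembly2
import Fermat.Agent.H17.HeckeDataComplex

/-!
# Igusa's theorem (S28) from the last remaining input IG-C (`RedStatement`); the analytic
input IG-M (`HasHeckeData ℂ`) and the unit norm lemma IG-E3 are plugged in here.
-/

set_option autoImplicit false
open AlgebraicGeometry CategoryTheory CategoryTheory.Limits ModularCurve ModularCurve.IgusaScheme
open scoped TensorProduct
noncomputable section

namespace Fermat.Agent.H27

/-- the degree of `ℚ(X₀(N))` over `ℚ(j)` is at most the degree in characteristic `ℓ ∤ N` -/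
theorem relrank_full_le_relrank_zmod (N : ℕ) [NeZero N] (ℓ : ℕ) [Fact ℓ.Prime] (hℓN : ¬ ℓ ∣ N) :
    IntermediateField.relrank (IntermediateField.adjoin ℚ {jq}) (modularFunctionFieldFull N)
      ≤ IntermediateField.relrank (IntermediateField.adjoin (ZMod ℓ) {jqModC (ZMod ℓ)})
          (modularFunctionFieldFullC (ZMod ℓ) N) :=
  (Fermat.Agent.H88.relrank_full_le_dedekindPsi Fermat.Agent.H17.hasHeckeData_complex N).trans
    (dedekindPsi_le_relrank_zmod N ℓ hℓN Fermat.Agent.H17.hasHeckeData_complex
      (unitNormStatement_of_hasHeckeData _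
        (Fermat.Agent.H67.hasHeckeData_of_complex Fermat.Agent.H17.hasHeckeData_complex _)))

theorem relrank_full_lt_aleph0 (N : ℕ) [NeZero N] :
    IntermediateField.relrank (IntermediateField.adjoin ℚ {jq}) (modularFunctionFieldFull N)
      < Cardinal.aleph0 :=
  lt_of_le_of_lt
    (Fermat.Agent.H88.relrank_full_le_dedekindPsi Fermat.Agent.H17.hasHeckeData_complex N)
    (Cardinal.natCast_lt_aleph0)

/-- **Igusa's theorem** from IG-C. -/
theorem igusa_isIntegral_of_red (N : ℕ) [NeZero N] (ℓ : ℕ) [Fact ℓ.Prime] (hℓN : ¬ ℓ ∣ N)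
    (hC : RedStatement N ℓ)
    (K : Type) [Field K] [CharP K ℓ] [Algebra ↥(GaloisRep.ratLocalizedAt ℓ) K] :
    IsIntegral ↑(pullback (igusaTo N ℓ)
      (Spec.map (CommRingCat.ofHom (algebraMap ↥(GaloisRep.ratLocalizedAt ℓ) K)))) :=
  igusa_isIntegral_of_red_hecke N ℓ hℓN hC Fermat.Agent.H17.hasHeckeData_complex K

end Fermat.Agent.H27
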