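import Mathlib
import Fermat.Prelude.Def_ModularCurve_X0ModL
import Fermat.Agent.H27.Igusa.Chain
import Fermat.Agent.H2.IgusaLevelRel
import Fermat.Agent.H75.IgusaFieldLemmas
import Fermat.Agent.H76.IgusaLocal
import Fermat.Agent.H26.DedekindPsi

/-!
# The characteristic-`ℓ` lower bound for the degree of `k(X₀(N)) / k(j)`  (P-IGUSA, IG-D2geom)

Chain induction over the sorted list of prime factors of `N`:
`k(j) ⊂ k(j, j_{p₁}) ⊂ k(j, j_{p₁}, j_{p₁p₂}) ⊂ ⋯`, each step of degree `p + 1` (new prime) or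
`p` (repeated prime).
-/

set_option autoImplicit false
noncomputable section
open ModularCurve Polynomial IntermediateField

namespace Fermat.Agent.H27

/-- **IG-E3 (unit norm lemma), as an interface statement**: `j(q^{Np})` does not lie in the chain
field of level `N` when `p ∤ N`. -/
def UnitNormStatement (k : Type) [Field k] : Prop :=
  ∀ (ps : List ℕ), (∀ q ∈ ps, q.Prime ∧ (q : k) ≠ 0) → ∀ (p : ℕ), p.Prime → (p : k) ≠ 0 →
    ¬ p ∣ ps.prod → jLev k (ps.prod * p) ∉ chainField k ps

/-- monotonicity of relrank in the second argument -/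
theorem relrank_le_relrank_of_le {F E : Type*} [Field F] [Field E] [Algebra F E]
    {A B C : IntermediateField F E} (h1 : A ≤ B) (h2 : B ≤ C) :
    relrank A B ≤ relrank A C := by
  rw [← relrank_mul_relrank h1 h2]
  refine Cardinal.le_mul_right ?_
  rw [relrank_eq_rank_of_le h2]
  exact (rank_pos).ne'

theorem exists_primitive_root_unit (k : Type*) [Field k] [IsAlgClosed k] (p : ℕ)
    (hpk : (p : k) ≠ 0) : ∃ ζ : kˣ, IsPrimitiveRoot (ζ : k) p := by
  have : NeZero (p : k) := ⟨hpk⟩
  obtain ⟨ζ, hζ⟩ := HasEnoughRootsOfUnity.exists_primitiveRoot k p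
  have hp0 : p ≠ 0 := by
    rintro rfl
    exact hpk (by simp)
  exact ⟨(hζ.isUnit hp0).unit, by simpa using hζ⟩

theorem prod_ne_zero_of_primes (ps : List ℕ) (hps : ∀ q ∈ ps, q.Prime) : ps.prod ≠ 0 := by
  rw [Ne, List.prod_eq_zero_iff]
  intro h
  exact Nat.not_prime_zero (hps 0 h)

theorem prod_rootFin_eval_jq {k : Type*} [Field k] (p : ℕ) (hp : 0 < p) (ζ : kˣ) :
    (∏ b ∈ Finset.range p, (X - C (rootFin (ζ ^ b)))).eval (jqModC k) = 0 := by
  rw [Polynomial.eval_prod]
  refine Finset.prod_eq_zero (Finset.mem_range.mpr hp) ?_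
  simp [rootFin]

/-- the abstract chain step -/
theorem chain_step_core (k : Type) [Field k] (G : IntermediateField k (LaurentSeries k))
    (y : LaurentSeries k) (P : Polynomial G) (hP : Irreducible P)
    (hPy : (P.map (algebraMap G (LaurentSeries k))).eval y = 0)
    (κ : G →+* LaurentSeries k) (hκ : (P.map κ).eval (jqModC k) = 0)
    (d n : ℕ) (hd : P.natDegree = d)
    (hjG : adjoin k {jqModC k} ≤ G)
    (hG : relrank (adjoin k {jqModC k}) G = (n : Cardinal)) :
    relrank (adjoin k {jqModC k}) (G ⊔ adjoin k {y}) = ((n * d : ℕ) : Cardinal) ∧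
    ∃ κ' : ↥(G ⊔ adjoin k {y}) →+* LaurentSeries k,
      (∀ x : G, κ' ⟨x, (le_sup_left : G ≤ G ⊔ adjoin k {y}) x.2⟩ = κ x) ∧
      κ' ⟨y, (le_sup_right : adjoin k {y} ≤ G ⊔ adjoin k {y})
        (mem_adjoin_simple_self k y)⟩ = jqModC k := by
  refine ⟨?_, Fermat.Agent.H75.exists_extend_ringHom G y P hP hPy κ (jqModC k) hκ⟩
  rw [← relrank_mul_relrank hjG (le_sup_left : G ≤ G ⊔ adjoin k {y}), hG,
    Fermat.Agent.H75.relrank_sup_adjoin_simple G y P hP hPy, hd]
  push_cast
  rfl

theorem exists_eq_append_of_dvd (ps : List ℕ) (p : ℕ) (hps : ∀ q ∈ ps, q.Prime) (hp : p.Prime)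
    (hsorted : (ps ++ [p]).Pairwise (· ≤ ·)) (hdvd : p ∣ ps.prod) : ∃ ps', ps = ps' ++ [p] := by
  obtain ⟨a, ha, hpa⟩ := (Nat.Prime.prime hp).dvd_prod_iff.mp hdvd
  have hap : p = a := (Nat.prime_dvd_prime_iff_eq hp (hps a ha)).mp hpa
  subst hap
  have hne : ps ≠ [] := List.ne_nil_of_mem ha
  obtain ⟨h1, -, h3⟩ := List.pairwise_append.mp hsorted
  refine ⟨ps.dropLast, ?_⟩
  have hl : ps.getLast hne ≤ p := h3 _ (List.getLast_mem hne) p (by simp)
  have hdec := List.dropLast_append_getLast hne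
  have hpl : p ≤ ps.getLast hne := by
    rw [← hdec] at ha h1
    rcases List.mem_append.mp ha with h | h
    · exact (List.pairwise_append.mp h1).2.2 p h _ (by simp)
    · simp at h; exact h.le
  rw [le_antisymm hpl hl]
  exact hdec.symm

/-- Case A of the chain step: `p ∤ N'`. -/
theorem step_poly_A (k : Type) [Field k] [IsAlgClosed k] (hM : HasHeckeData k)
    (hE3 : UnitNormStatement k)
    (ps : List ℕ) (p : ℕ) [NeZero p]
    (hps : ∀ q ∈ ps, q.Prime ∧ (q : k) ≠ 0) (hp : p.Prime) (hpk : (p : k) ≠ 0)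
    (hpn : ¬ p ∣ ps.prod)
    (κ₀ : chainField k ps →+* LaurentSeries k)
    (hκ₀ : κ₀ ⟨jLev k ps.prod, jLev_mem_chainField k (List.prefix_refl ps)⟩ = jqModC k) :
    ∃ P : Polynomial (chainField k ps), Irreducible P ∧
      (P.map (algebraMap (chainField k ps) (LaurentSeries k))).eval (jLev k (ps.prod * p)) = 0 ∧
      (P.map ((qExpand k p).comp κ₀)).eval (jqModC k) = 0 ∧
      P.natDegree = p + 1 := by
  obtain ⟨ζ, hζ⟩ := exists_primitive_root_unit k p hpk
  obtain ⟨D⟩ := hM p hp ζ hζ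
  have hn : ps.prod ≠ 0 := prod_ne_zero_of_primes ps (fun q hq => (hps q hq).1)
  have hPmap : (D.Φ.map (evalAtR (⟨jLev k ps.prod, jLev_mem_chainField k (List.prefix_refl ps)⟩ :
      chainField k ps))).map (algebraMap (chainField k ps) (LaurentSeries k)) =
      D.Φ.map (evalAt (jLev k ps.prod)) := by
    rw [Polynomial.map_map, evalAtR_comp]; rfl
  have hPκ : (D.Φ.map (evalAtR (⟨jLev k ps.prod, jLev_mem_chainField k (List.prefix_refl ps)⟩ :
      chainField k ps))).map ((qExpand k p).comp κ₀) = D.Φ.map (evalAt (baseS k p)) := by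
    rw [Polynomial.map_map, evalAtR_comp, RingHom.comp_apply, hκ₀]; rfl
  obtain ⟨g, hg, hgmap⟩ := Fermat.Agent.H76.irreducible_prod_twist k p hp ζ hζ (jLev k ps.prod)
    (Fermat.Agent.H2.jLev_not_mem_range_qExpand k p hp ps.prod hn hpn)
  have hfac : D.Φ.map (evalAt (jLev k ps.prod)) = (X - C (jLev k (ps.prod * p))) * g := by
    apply Polynomial.map_injective (qExpand k p) (qExpand_injective p)
    rw [Polynomial.map_map, comp_evalAt, Polynomial.map_mul, hgmap, Polynomial.map_sub,
      Polynomial.map_X, Polynomial.map_C]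
    exact Fermat.Agent.H2.Phi_factor_lev k p ζ D hp hζ ps.prod hn hpn
  refine ⟨D.Φ.map (evalAtR (⟨jLev k ps.prod, jLev_mem_chainField k (List.prefix_refl ps)⟩ :
      chainField k ps)), ?_, ?_, ?_, ?_⟩
  · exact Fermat.Agent.H75.irreducible_of_factor (chainField k ps) _ (D.Φ_monic.map _) (jLev k (ps.prod * p))
      (hE3 ps hps p hp hpk hpn) g hg (hPmap.trans hfac)
  · rw [hPmap, hfac]
    simp
  · rw [hPκ, D.Φ_factor, Polynomial.eval_mul, prod_rootFin_eval_jq p hp.pos ζ, mul_zero]
  · rw [D.Φ_monic.natDegree_map, D.Φ_natDegree]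

/-- Case B of the chain step: the last prime is repeated. -/
theorem step_poly_B (k : Type) [Field k] [IsAlgClosed k] (hM : HasHeckeData k)
    (ps' : List ℕ) (p : ℕ) [NeZero p]
    (hps : ∀ q ∈ ps', q.Prime ∧ (q : k) ≠ 0) (hp : p.Prime) (hpk : (p : k) ≠ 0)
    (κ₀ : chainField k (ps' ++ [p]) →+* LaurentSeries k)
    (hκ₀ : κ₀ ⟨jLev k (ps' ++ [p]).prod,
      jLev_mem_chainField k (List.prefix_refl (ps' ++ [p]))⟩ = jqModC k)
    (hκ₀' : κ₀ ⟨jLev k ps'.prod, jLev_mem_chainField k (List.prefix_append ps' [p])⟩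
      = jLev k p) :
    ∃ P : Polynomial (chainField k (ps' ++ [p])), Irreducible P ∧
      (P.map (algebraMap (chainField k (ps' ++ [p])) (LaurentSeries k))).eval
        (jLev k ((ps' ++ [p]).prod * p)) = 0 ∧
      (P.map ((qExpand k p).comp κ₀)).eval (jqModC k) = 0 ∧
      P.natDegree = p := by
  obtain ⟨ζ, hζ⟩ := exists_primitive_root_unit k p hpk
  obtain ⟨D⟩ := hM p hp ζ hζ
  have hn' : ps'.prod ≠ 0 := prod_ne_zero_of_primes ps' (fun q hq => (hps q hq).1)
  have hprod : (ps' ++ [p]).prod = ps'.prod * p := by simp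
  have hn : (ps' ++ [p]).prod ≠ 0 := by
    rw [hprod]; exact mul_ne_zero hn' hp.ne_zero
  obtain ⟨a, ha⟩ : ∃ a : chainField k (ps' ++ [p]), (a : LaurentSeries k) =
      jLev k (ps' ++ [p]).prod :=
    ⟨⟨_, jLev_mem_chainField k (List.prefix_refl (ps' ++ [p]))⟩, rfl⟩
  obtain ⟨b, hb⟩ : ∃ b : chainField k (ps' ++ [p]), (b : LaurentSeries k) = jLev k ps'.prod :=
    ⟨⟨_, jLev_mem_chainField k (List.prefix_append ps' [p])⟩, rfl⟩
  have hκa : κ₀ a = jqModC k := by
    rw [← hκ₀]; congr 1; exact Subtype.ext ha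
  have hκb : κ₀ b = jLev k p := by
    rw [← hκ₀']; congr 1; exact Subtype.ext hb
  have hPmap : (D.Φ.map (evalAtR a)).map (algebraMap (chainField k (ps' ++ [p]))
      (LaurentSeries k)) = D.Φ.map (evalAt (jLev k (ps'.prod * p))) := by
    rw [Polynomial.map_map, evalAtR_comp, ← hprod, ← ha]; rfl
  have hPκ : (D.Φ.map (evalAtR a)).map ((qExpand k p).comp κ₀) =
      D.Φ.map (evalAt (baseS k p)) := by
    rw [Polynomial.map_map, evalAtR_comp, RingHom.comp_apply, hκa]; rfl
  -- b is a root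
  have hroot : (D.Φ.map (evalAtR a)).IsRoot b := by
    rw [Polynomial.IsRoot.def]
    apply (algebraMap (chainField k (ps' ++ [p])) (LaurentSeries k)).injective
    rw [map_zero, ← Polynomial.eval_map_apply, hPmap]
    have hb' : algebraMap (chainField k (ps' ++ [p])) (LaurentSeries k) b = jLev k ps'.prod := hb
    rw [hb']
    exact Fermat.Agent.H2.Phi_rel_symm k p ζ D ps'.prod hn'
  have hΦ := Polynomial.mul_divByMonic_eq_iff_isRoot.mpr hroot
  have hmonic : (D.Φ.map (evalAtR a) /ₘ (X - C b)).Monic :=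
    Polynomial.Monic.of_mul_monic_left (monic_X_sub_C b) (by rw [hΦ]; exact D.Φ_monic.map _)
  -- the image under κ
  have hκP : (D.Φ.map (evalAtR a) /ₘ (X - C b)).map ((qExpand k p).comp κ₀) =
      ∏ c ∈ Finset.range p, (X - C (rootFin (ζ ^ c))) := by
    have h1 := congrArg (Polynomial.map ((qExpand k p).comp κ₀)) hΦ
    rw [hPκ, D.Φ_factor, Polynomial.map_mul, Polynomial.map_sub, Polynomial.map_X,
      Polynomial.map_C, RingHom.comp_apply, hκb, jLev_eq] at h1
    exact mul_left_cancel₀ (X_sub_C_ne_zero _) h1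
  obtain ⟨g, hg, hgmap⟩ := Fermat.Agent.H76.irreducible_prod_twist k p hp ζ hζ (jqModC k)
    (by
      have := Fermat.Agent.H2.jLev_not_mem_range_qExpand k p hp 1 one_ne_zero
        (by intro h; exact hp.one_lt.ne' (Nat.dvd_one.mp h))
      rwa [jLev_one] at this)
  have hκ₀P : (D.Φ.map (evalAtR a) /ₘ (X - C b)).map κ₀ = g := by
    apply Polynomial.map_injective (qExpand k p) (qExpand_injective p)
    rw [Polynomial.map_map, hκP, hgmap]
    rfl
  refine ⟨D.Φ.map (evalAtR a) /ₘ (X - C b), ?_, ?_, ?_, ?_⟩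
  · exact Polynomial.Monic.irreducible_of_irreducible_map κ₀ _ hmonic (hκ₀P ▸ hg)
  · have h1 := congrArg (Polynomial.map (algebraMap (chainField k (ps' ++ [p]))
      (LaurentSeries k))) hΦ
    rw [hPmap, Polynomial.map_mul, Polynomial.map_sub, Polynomial.map_X, Polynomial.map_C] at h1
    have h2 := congrArg (Polynomial.eval (jLev k ((ps' ++ [p]).prod * p))) h1
    rw [Polynomial.eval_mul, hprod, Fermat.Agent.H2.Phi_rel k p ζ D (ps'.prod * p) (hprod ▸ hn)] at h2
    rcases mul_eq_zero.mp h2 with h3 | h3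
    · exfalso
      simp only [Polynomial.eval_sub, Polynomial.eval_X, Polynomial.eval_C] at h3
      rw [sub_eq_zero] at h3
      have h4 : ps'.prod * p * p = ps'.prod :=
        Fermat.Agent.H2.jLev_injective k (mul_ne_zero (hprod ▸ hn) hp.ne_zero) hn' (h3.trans hb)
      have h5 : ps'.prod * (p * p) = ps'.prod * 1 := by rw [mul_one, ← mul_assoc, h4]
      have h6 := Nat.eq_of_mul_eq_mul_left (Nat.pos_of_ne_zero hn') h5
      have := hp.one_lt
      nlinarith
    · rw [hprod]; exact h3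
  · rw [hκP]
    exact prod_rootFin_eval_jq p hp.pos ζ
  · rw [Polynomial.natDegree_divByMonic _ (monic_X_sub_C b), D.Φ_monic.natDegree_map,
      D.Φ_natDegree, natDegree_X_sub_C]
    simp

/-- The step polynomial: in both cases an irreducible polynomial over the chain field with root
`j(q^{N'p})`, whose image under the shifted cusp-0 embedding has root `j`, and whose degree is
the ratio of the Dedekind psi values. -/
theorem step_poly (k : Type) [Field k] [IsAlgClosed k] (hM : HasHeckeData k)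
    (hE3 : UnitNormStatement k)
    (ps : List ℕ) (p : ℕ) [NeZero p]
    (hps : ∀ q ∈ ps ++ [p], q.Prime ∧ (q : k) ≠ 0)
    (hsorted : (ps ++ [p]).Pairwise (· ≤ ·))
    (κ₀ : chainField k ps →+* LaurentSeries k)
    (hκ₀ : ∀ qs : List ℕ, qs <+: ps → ∀ h : jLev k qs.prod ∈ chainField k ps,
      κ₀ ⟨jLev k qs.prod, h⟩ = jLev k (ps.prod / qs.prod)) :
    ∃ P : Polynomial (chainField k ps), Irreducible P ∧
      (P.map (algebraMap (chainField k ps) (LaurentSeries k))).eval (jLev k (ps.prod * p)) = 0 ∧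
      (P.map ((qExpand k p).comp κ₀)).eval (jqModC k) = 0 ∧
      dedekindPsi (ps.prod * p) = dedekindPsi ps.prod * P.natDegree := by
  have hp : p.Prime := (hps p (by simp)).1
  have hpk : (p : k) ≠ 0 := (hps p (by simp)).2
  have hps' : ∀ q ∈ ps, q.Prime ∧ (q : k) ≠ 0 := fun q hq => hps q (List.mem_append_left _ hq)
  have hn : ps.prod ≠ 0 := prod_ne_zero_of_primes ps (fun q hq => (hps' q hq).1)
  have hself : κ₀ ⟨jLev k ps.prod, jLev_mem_chainField k (List.prefix_refl ps)⟩ = jqModC k := by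
    rw [hκ₀ ps (List.prefix_refl ps), Nat.div_self (Nat.pos_of_ne_zero hn), jLev_one]
  by_cases hpn : p ∣ ps.prod
  · obtain ⟨ps', rfl⟩ := exists_eq_append_of_dvd ps p (fun q hq => (hps' q hq).1) hp hsorted hpn
    have hps'' : ∀ q ∈ ps', q.Prime ∧ (q : k) ≠ 0 :=
      fun q hq => hps' q (List.mem_append_left _ hq)
    have hn' : ps'.prod ≠ 0 := prod_ne_zero_of_primes ps' (fun q hq => (hps'' q hq).1)
    have hprev : κ₀ ⟨jLev k ps'.prod, jLev_mem_chainField k (List.prefix_append ps' [p])⟩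
        = jLev k p := by
      rw [hκ₀ ps' (List.prefix_append ps' [p])]
      congr 1
      rw [List.prod_append, List.prod_singleton, Nat.mul_div_cancel_left _ (Nat.pos_of_ne_zero hn')]
    obtain ⟨P, hP, h1, h2, h3⟩ := step_poly_B k hM ps' p hps'' hp hpk κ₀ hself hprev
    exact ⟨P, hP, h1, h2, by
      rw [h3]; exact Fermat.Agent.H26.dedekindPsi_mul_prime_of_dvd _ p (Nat.pos_of_ne_zero hn) hp hpn⟩
  · obtain ⟨P, hP, h1, h2, h3⟩ := step_poly_A k hM hE3 ps p hps' hp hpk hpn κ₀ hself
    exact ⟨P, hP, h1, h2, by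
      rw [h3]
      exact Fermat.Agent.H26.dedekindPsi_mul_prime_of_not_dvd _ p (Nat.pos_of_ne_zero hn) hp hpn⟩

/-- invariant of the chain induction -/
def ChainOK (k : Type) [Field k] (ps : List ℕ) : Prop :=
  ∀ G : IntermediateField k (LaurentSeries k), G = chainField k ps →
    relrank (adjoin k {jqModC k}) G = (dedekindPsi ps.prod : Cardinal) ∧
    ∃ κ₀ : G →+* LaurentSeries k, ∀ qs : List ℕ, qs <+: ps →
      ∀ h : jLev k qs.prod ∈ G, κ₀ ⟨jLev k qs.prod, h⟩ = jLev k (ps.prod / qs.prod)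

theorem chainOK_nil (k : Type) [Field k] : ChainOK k [] := by
  rintro G rfl
  refine ⟨?_, ?_⟩
  · rw [chainField_nil, relrank_self]
    simp [dedekindPsi_one]
  · refine ⟨algebraMap _ _, ?_⟩
    intro qs hqs h
    have : qs = [] := List.prefix_nil.mp hqs
    subst this
    simp

theorem chainOK_step (k : Type) [Field k] [IsAlgClosed k] (hM : HasHeckeData k)
    (hE3 : UnitNormStatement k)
    (ps : List ℕ) (p : ℕ)
    (hps : ∀ q ∈ ps ++ [p], q.Prime ∧ (q : k) ≠ 0)
    (hsorted : (ps ++ [p]).Pairwise (· ≤ ·))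
    (ih : ChainOK k ps) : ChainOK k (ps ++ [p]) := by
  have hp : p.Prime := (hps p (by simp)).1
  have : NeZero p := ⟨hp.ne_zero⟩
  have hps' : ∀ q ∈ ps, q.Prime ∧ (q : k) ≠ 0 := fun q hq => hps q (List.mem_append_left _ hq)
  have hn : ps.prod ≠ 0 := prod_ne_zero_of_primes ps (fun q hq => (hps' q hq).1)
  obtain ⟨hrank, κ₀, hκ₀⟩ := ih (chainField k ps) rfl
  obtain ⟨P, hP, hPy, hPκ, hdeg⟩ := step_poly k hM hE3 ps p hps hsorted κ₀ hκ₀
  obtain ⟨h1, κ', hκ'1, hκ'2⟩ := chain_step_core k (chainField k ps) (jLev k (ps.prod * p)) P hP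
    hPy ((qExpand k p).comp κ₀) hPκ P.natDegree (dedekindPsi ps.prod) rfl
    (base_le_chainField k ps) hrank
  intro G' hG'
  have e : G' = chainField k ps ⊔ adjoin k {jLev k (ps.prod * p)} :=
    hG'.trans (chainField_append_singleton k ps p)
  subst e
  refine ⟨?_, κ', ?_⟩
  · rw [h1, List.prod_append, List.prod_singleton, hdeg]
  · intro qs hqs h
    rcases List.prefix_concat_iff.mp (by simpa using hqs) with hq | hq
    · -- `qs = ps ++ [p]`
      have hq' : qs.prod = ps.prod * p := by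
        rw [hq]; simp
      have hne : ps.prod * p ≠ 0 := mul_ne_zero hn hp.ne_zero
      have h2 : (⟨jLev k qs.prod, h⟩ : ↥(chainField k ps ⊔ adjoin k {jLev k (ps.prod * p)})) =
          ⟨jLev k (ps.prod * p), (le_sup_right : adjoin k {jLev k (ps.prod * p)} ≤
            chainField k ps ⊔ adjoin k {jLev k (ps.prod * p)})
            (mem_adjoin_simple_self k _)⟩ := Subtype.ext (congrArg (jLev k) hq')
      rw [h2, hκ'2, List.prod_append, List.prod_singleton, hq',
        Nat.div_self (Nat.pos_of_ne_zero hne), jLev_one]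
    · -- `qs` is a prefix of `ps`
      have hmem : jLev k qs.prod ∈ chainField k ps := jLev_mem_chainField k hq
      have hdvd : qs.prod ∣ ps.prod := by
        obtain ⟨t, rfl⟩ := hq
        rw [List.prod_append]
        exact dvd_mul_right _ _
      have hqne : qs.prod ≠ 0 := ne_zero_of_dvd_ne_zero hn hdvd
      have hdiv : ps.prod / qs.prod ≠ 0 := by
        intro h0
        have := Nat.div_mul_cancel hdvd
        rw [h0, zero_mul] at this
        exact hn this.symm
      have h2 := hκ'1 ⟨jLev k qs.prod, hmem⟩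
      rw [h2, RingHom.comp_apply, hκ₀ qs hq hmem, qExpand_jLev k p _ hdiv, List.prod_append,
        List.prod_singleton]
      congr 1
      rw [mul_comm ps.prod p]
      exact (Nat.mul_div_assoc p hdvd).symm

theorem chainOK_of_sorted (k : Type) [Field k] [IsAlgClosed k] (hM : HasHeckeData k)
    (hE3 : UnitNormStatement k)
    (ps : List ℕ) (hps : ∀ q ∈ ps, q.Prime ∧ (q : k) ≠ 0) (hsorted : ps.Pairwise (· ≤ ·)) :
    ChainOK k ps := by
  induction ps using List.reverseRecOn with
  | nil => exact chainOK_nil k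
  | append_singleton ps p ih =>
    refine chainOK_step k hM hE3 ps p hps hsorted (ih ?_ ?_)
    · intro q hq; exact hps q (List.mem_append_left _ hq)
    · exact (List.pairwise_append.mp hsorted).1

theorem chainField_le_full (k : Type) [Field k] (N : ℕ) [NeZero N] (ps : List ℕ)
    (hprod : ps.prod = N) : chainField k ps ≤ modularFunctionFieldFullC k N := by
  rw [chainField, adjoin_le_iff]
  rintro x ⟨qs, hqs, rfl⟩
  have hdvd : qs.prod ∣ N := by
    obtain ⟨t, rfl⟩ := hqs
    rw [← hprod, List.prod_append]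
    exact dvd_mul_right _ _
  have hne : qs.prod ≠ 0 := ne_zero_of_dvd_ne_zero (NeZero.ne N) hdvd
  have : NeZero qs.prod := ⟨hne⟩
  rw [jLev_eq]
  exact jqModCd_mem_full k N hdvd

/-- **IG-D2geom.** Over an algebraically closed field `k` in which `N` is invertible, the degree
of the full modular function field of level `N` over `k(j)` is at least `ψ(N)`. -/
theorem dedekindPsi_le_relrank_geom_of (k : Type) [Field k] [IsAlgClosed k]
    (hM : HasHeckeData k) (hE3 : UnitNormStatement k)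
    (N : ℕ) [NeZero N] (hN : (N : k) ≠ 0) :
    (dedekindPsi N : Cardinal) ≤
      relrank (adjoin k {jqModC k}) (modularFunctionFieldFullC k N) := by
  have hprod : N.primeFactorsList.prod = N := Nat.prod_primeFactorsList (NeZero.ne N)
  have hps : ∀ q ∈ N.primeFactorsList, q.Prime ∧ (q : k) ≠ 0 := by
    intro q hq
    refine ⟨Nat.prime_of_mem_primeFactorsList hq, ?_⟩
    intro h0
    obtain ⟨m, hm⟩ := Nat.dvd_of_mem_primeFactorsList hq
    apply hN
    rw [hm]
    push_cast
    rw [h0, zero_mul]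
  obtain ⟨hrank, -⟩ := chainOK_of_sorted k hM hE3 _ hps (Nat.primeFactorsList_sorted N).pairwise
    (chainField k _) rfl
  rw [hprod] at hrank
  rw [← hrank]
  exact relrank_le_relrank_of_le (base_le_chainField k _) (chainField_le_full k N _ hprod)

end Fermat.Agent.H27
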