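import Mathlib
import Fermat.Prelude.Def_ModularCurve_IgusaScheme
import Fermat.Prelude.Def_ModularCurve_X0ModL
import Fermat.Agent.H27.Igusa.Geom
import Fermat.Agent.H57.IgusaDescent
import Fermat.Agent.H67.IgusaTransfer
import Fermat.Agent.H88.IGD1
import Fermat.Agent.H91.IgusaGlue
import Fermat.Agent.H91.TensorRed

/-!
# Final assembly of Igusa's theorem (S28) from the three remaining interface statements

* `RedStatement N ℓ`   (IG-C): the q-expansion principle, given the degree inequality;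
* `HasHeckeData ℂ`      (IG-M): the analytic input (modular equation, unit equation);
* `UnitNormStatement k` (IG-E3) for `k = AlgebraicClosure (ZMod ℓ)`.
-/

set_option autoImplicit false
open AlgebraicGeometry CategoryTheory CategoryTheory.Limits ModularCurve ModularCurve.IgusaScheme
open scoped TensorProduct
noncomputable section

namespace Fermat.Agent.H27

/-- **IG-C, as an interface statement**: if the characteristic-0 degree is finite and bounded by
the characteristic-`ℓ` degree, then every chart algebra has a reduction map to `𝔽_ℓ((q))` whose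
kernel is generated by `ℓ`. -/
def RedStatement (N : ℕ) [NeZero N] (ℓ : ℕ) [Fact ℓ.Prime] : Prop :=
  IntermediateField.relrank (IntermediateField.adjoin ℚ {jq}) (modularFunctionFieldFull N)
      ≤ IntermediateField.relrank (IntermediateField.adjoin (ZMod ℓ) {jqModC (ZMod ℓ)})
          (modularFunctionFieldFullC (ZMod ℓ) N) →
  IntermediateField.relrank (IntermediateField.adjoin ℚ {jq})
      (modularFunctionFieldFull N) < Cardinal.aleph0 →
  ∀ S : Set ↥(modularFunctionFieldFull N),
    (S = {jFull N} ∨ S = {(jFull N)⁻¹} ∨ S = {jFull N, (jFull N)⁻¹}) →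
    ∃ red : ↥(chartAlg N ℓ S) →+* LaurentSeries (ZMod ℓ),
      RingHom.ker red = Ideal.span {(ℓ : ↥(chartAlg N ℓ S))}

/-- the lower bound in characteristic `ℓ` -/
theorem dedekindPsi_le_relrank_zmod (N : ℕ) [NeZero N] (ℓ : ℕ) [Fact ℓ.Prime] (hℓN : ¬ ℓ ∣ N)
    (hM : HasHeckeData ℂ) (hE3 : UnitNormStatement (AlgebraicClosure (ZMod ℓ))) :
    (dedekindPsi N : Cardinal) ≤
      IntermediateField.relrank (IntermediateField.adjoin (ZMod ℓ) {jqModC (ZMod ℓ)})
        (modularFunctionFieldFullC (ZMod ℓ) N) := by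
  have hN : (N : AlgebraicClosure (ZMod ℓ)) ≠ 0 := by
    intro h
    have h3 : (N : ZMod ℓ) = 0 := by
      apply (algebraMap (ZMod ℓ) (AlgebraicClosure (ZMod ℓ))).injective
      rw [map_natCast, map_zero]
      exact h
    exact hℓN ((ZMod.natCast_eq_zero_iff N ℓ).mp h3)
  exact (dedekindPsi_le_relrank_geom_of (AlgebraicClosure (ZMod ℓ))
    (Fermat.Agent.H67.hasHeckeData_of_complex hM _) hE3 N hN).trans
    (Fermat.Agent.H57.relrank_descent_algebraicClosure_zmod ℓ N)

/-- every chart algebra stays a domain after base change to a field of characteristic `ℓ` -/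
theorem chartAlg_tensor_isDomain (N : ℕ) [NeZero N] (ℓ : ℕ) [Fact ℓ.Prime] (hℓN : ¬ ℓ ∣ N)
    (hC : RedStatement N ℓ) (hM : HasHeckeData ℂ)
    (hE3 : UnitNormStatement (AlgebraicClosure (ZMod ℓ)))
    (K : Type) [Field K] [CharP K ℓ] [Algebra ↥(GaloisRep.ratLocalizedAt ℓ) K]
    (S : Set ↥(modularFunctionFieldFull N))
    (hS : S = {jFull N} ∨ S = {(jFull N)⁻¹} ∨ S = {jFull N, (jFull N)⁻¹}) :
    IsDomain (↥(chartAlg N ℓ S) ⊗[↥(GaloisRep.ratLocalizedAt ℓ)] K) := by
  have hD1 := Fermat.Agent.H88.relrank_full_le_dedekindPsi hM N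
  have hD2 := dedekindPsi_le_relrank_zmod N ℓ hℓN hM hE3
  obtain ⟨red, hred⟩ := hC (hD1.trans hD2)
    (lt_of_le_of_lt hD1 (Cardinal.natCast_lt_aleph0)) S hS
  exact Fermat.Agent.H91.isDomain_tensor_of_red ℓ red K hred

/-- **Igusa's theorem** from the three interface statements. -/
theorem igusa_isIntegral_of (N : ℕ) [NeZero N] (ℓ : ℕ) [Fact ℓ.Prime] (hℓN : ¬ ℓ ∣ N)
    (hC : RedStatement N ℓ) (hM : HasHeckeData ℂ)
    (hE3 : UnitNormStatement (AlgebraicClosure (ZMod ℓ)))
    (K : Type) [Field K] [CharP K ℓ] [Algebra ↥(GaloisRep.ratLocalizedAt ℓ) K] :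
    IsIntegral ↑(pullback (igusaTo N ℓ)
      (Spec.map (CommRingCat.ofHom (algebraMap ↥(GaloisRep.ratLocalizedAt ℓ) K)))) := by
  refine Fermat.Agent.H91.igusa_pullback_isIntegral N ℓ K ?_ ?_ ?_
  · exact chartAlg_tensor_isDomain N ℓ hℓN hC hM hE3 K _ (Or.inl rfl)
  · exact chartAlg_tensor_isDomain N ℓ hℓN hC hM hE3 K _ (Or.inr (Or.inl rfl))
  · exact (chartAlg_tensor_isDomain N ℓ hℓN hC hM hE3 K {jFull N, (jFull N)⁻¹}
      (Or.inr (Or.inr rfl))).toNontrivial

end Fermat.Agent.H27
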